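/-
Program A (S29 / S42), helper60: functoriality of the Prelude's divisor push-forward and
pull-back along a composite of `K`-embeddings of function fields.

The composite is given as a third embedding `χ` with `χ x = ψ (φ x)` pointwise, so that the
lemmas apply verbatim to both decompositions of the diagonal of a commutative square.
-/
import Fermat.Prelude.Def_AlgebraicCurve_Correspondence

set_option autoImplicit false

open AlgebraicCurve

noncomputable section

namespace Fermat.Agent.S29.H60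

section Comp

variable {K F₁ F₂ F₃ : Type*} [Field K] [Field F₁] [Field F₂] [Field F₃]
  [Algebra K F₁] [Algebra K F₂] [Algebra K F₃]

/-- Restriction of places along a composite. -/
theorem restrictAlong_comp (φ : F₁ →ₐ[K] F₂) (ψ : F₂ →ₐ[K] F₃) (χ : F₁ →ₐ[K] F₃)
    (hφ : φ.toRingHom.IsIntegral) (hψ : ψ.toRingHom.IsIntegral) (hχ : χ.toRingHom.IsIntegral)
    (h : ∀ x, χ x = ψ (φ x)) (w : Place K F₃) :
    w.restrictAlong χ hχ = (w.restrictAlong ψ hψ).restrictAlong φ hφ := by
  apply Place.ext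
  ext f
  show χ f ∈ w.toValuationSubring ↔ ψ (φ f) ∈ w.toValuationSubring
  rw [h]

/-- Ramification indices are multiplicative in towers. -/
theorem ramificationIndexAlong_comp (φ : F₁ →ₐ[K] F₂) (ψ : F₂ →ₐ[K] F₃) (χ : F₁ →ₐ[K] F₃)
    (hφ : φ.toRingHom.IsIntegral) (hψ : ψ.toRingHom.IsIntegral) (hχ : χ.toRingHom.IsIntegral)
    (h : ∀ x, χ x = ψ (φ x)) (w : Place K F₃) :
    Place.ramificationIndexAlong χ w
      = Place.ramificationIndexAlong ψ w
        * Place.ramificationIndexAlong φ (w.restrictAlong ψ hψ) := by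
  obtain ⟨π, hπ⟩ := IsDiscreteValuationRing.exists_irreducible
    (w.restrictAlong χ hχ).toValuationSubring
  have hf : (w.restrictAlong χ hχ).ord (π : F₁) = 1 :=
    (w.restrictAlong χ hχ).ord_coe_irreducible hπ
  have h1 := Place.ord_restrictAlong χ hχ w (π : F₁)
  have h2 := Place.ord_restrictAlong ψ hψ w (φ (π : F₁))
  have h3 := Place.ord_restrictAlong φ hφ (w.restrictAlong ψ hψ) (π : F₁)
  rw [← restrictAlong_comp φ ψ χ hφ hψ hχ h w, hf, mul_one] at h3
  rw [hf, mul_one, h, h2, h3] at h1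
  exact_mod_cast h1.symm

/-- Pull-back of divisors along a composite. -/
theorem pullbackAlong_comp [HasPrincipalDivisors K F₂] [HasPrincipalDivisors K F₃]
    (φ : F₁ →ₐ[K] F₂) (ψ : F₂ →ₐ[K] F₃) (χ : F₁ →ₐ[K] F₃)
    (hφ : φ.toRingHom.IsIntegral) (hψ : ψ.toRingHom.IsIntegral) (hχ : χ.toRingHom.IsIntegral)
    (h : ∀ x, χ x = ψ (φ x)) (D : Divisor K F₁) :
    Divisor.pullbackAlong χ hχ D
      = Divisor.pullbackAlong ψ hψ (Divisor.pullbackAlong φ hφ D) := by
  ext w
  rw [Divisor.pullbackAlong_apply, Divisor.pullbackAlong_apply, Divisor.pullbackAlong_apply,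
    ramificationIndexAlong_comp φ ψ χ hφ hψ hχ h w, restrictAlong_comp φ ψ χ hφ hψ hχ h w]
  push_cast
  ring

/-- Push-forward of divisors along a composite (all inertia degrees equal to one). -/
theorem pushforwardAlong_comp (φ : F₁ →ₐ[K] F₂) (ψ : F₂ →ₐ[K] F₃) (χ : F₁ →ₐ[K] F₃)
    (hφ : φ.toRingHom.IsIntegral) (hψ : ψ.toRingHom.IsIntegral) (hχ : χ.toRingHom.IsIntegral)
    (h : ∀ x, χ x = ψ (φ x))
    (hIφ : ∀ v : Place K F₂, v.inertiaDegAlong φ hφ = 1)
    (hIψ : ∀ w : Place K F₃, w.inertiaDegAlong ψ hψ = 1)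
    (hIχ : ∀ w : Place K F₃, w.inertiaDegAlong χ hχ = 1)
    (E : Divisor K F₃) :
    Divisor.pushforwardAlong χ hχ E
      = Divisor.pushforwardAlong φ hφ (Divisor.pushforwardAlong ψ hψ E) := by
  induction E using Finsupp.induction with
  | zero => simp
  | single_add w n E _ _ ih =>
      rw [map_add, map_add, map_add, ih, Divisor.pushforwardAlong_single,
        Divisor.pushforwardAlong_single, Divisor.pushforwardAlong_single, hIφ, hIψ, hIχ,
        restrictAlong_comp φ ψ χ hφ hψ hχ h w]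
      simp

end Comp

end Fermat.Agent.S29.H60
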