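/-
Program A (S29 / S42), helper60: **base change for divisors** in a commutative square of
function fields

      F  --α-->  F'
      |β         |β'
      v          v
      K₁ --α'--> M

`β^* ∘ α_* = α'_* ∘ β'^*` on `Div(F')`, as soon as the norms are compatible
(`N_{α'}(β' t) = β (N_α t)`: the square is "cartesian"), the norm formula holds along `α` and
`α'`, inertia degrees along `α`, `α'` are one, and weak approximation holds in `F'`.
-/
import Fermat.Agent.S29.H60.Functor
import Fermat.Agent.S37.H75.Relative

set_option autoImplicit false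

open AlgebraicCurve

noncomputable section

namespace Fermat.Agent.S29.H60

section FibreSum

variable {K F F' : Type*} [Field K] [Field F] [Field F'] [Algebra K F] [Algebra K F']

/-- The norm along a `K`-embedding of fields. -/
def normAlong (φ : F →ₐ[K] F') (g : F') : F :=
  letI := algebraAlong φ
  Algebra.norm F g

/-- The fibre form of the norm formula along an embedding. -/
theorem sum_fiberAlong_ord [HasPrincipalDivisors K F'] (φ : F →ₐ[K] F')
    (hφ : φ.toRingHom.IsIntegral) (hfin : FiniteAlong K φ) (hN : NormFormulaAlong K φ hfin)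
    (v : Place K F) {g : F'} (hg : g ≠ 0) :
    ∑ w ∈ Place.fiberAlong φ hφ v, w.ord g * (w.inertiaDegAlong φ hφ : ℤ)
      = v.ord (normAlong φ g) := by
  letI := algebraAlong φ
  haveI := isScalarTower_along φ
  haveI := isIntegral_along φ hφ
  haveI : Module.Finite F F' := hfin
  exact Fermat.Agent.S37.H75.sum_fiber_ord_mul_inertiaDeg hN v hg

end FibreSum

section Square

variable {K F F' K₁ M : Type*} [Field K] [Field F] [Field F'] [Field K₁] [Field M]
  [Algebra K F] [Algebra K F'] [Algebra K K₁] [Algebra K M]
  [HasPrincipalDivisors K F'] [HasPrincipalDivisors K K₁] [HasPrincipalDivisors K M]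

/-- The local identity behind base change: for a place `v` of `F'` and a place `w` of `K₁`,
`∑_{x | v, x | w} e_{β'}(x) = e_β(w)` if `v` and `w` lie over the same place of `F`, and the
index set is empty otherwise. -/
theorem sum_ramificationIndex_fiber
    (α : F →ₐ[K] F') (β : F →ₐ[K] K₁) (α' : K₁ →ₐ[K] M) (β' : F' →ₐ[K] M)
    (hα : α.toRingHom.IsIntegral) (hβ : β.toRingHom.IsIntegral)
    (hα' : α'.toRingHom.IsIntegral) (hβ' : β'.toRingHom.IsIntegral)
    (hsq : ∀ x : F, α' (β x) = β' (α x))
    (hfinα : FiniteAlong K α) (hNα : NormFormulaAlong K α hfinα)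
    (hfinα' : FiniteAlong K α') (hNα' : NormFormulaAlong K α' hfinα')
    (hIα : ∀ v : Place K F', v.inertiaDegAlong α hα = 1)
    (hIα' : ∀ x : Place K M, x.inertiaDegAlong α' hα' = 1)
    (hnorm : ∀ t : F', normAlong α' (β' t) = β (normAlong α t))
    (hWA : ∀ (T : Finset (Place K F')) (n : Place K F' → ℤ),
      ∃ t : F', t ≠ 0 ∧ ∀ P ∈ T, P.ord t = n P)
    [DecidableEq (Place K F)] [DecidableEq (Place K K₁)]
    (v : Place K F') (w : Place K K₁) :
    ∑ x ∈ Place.fiberAlong β' hβ' v,
        (if x.restrictAlong α' hα' = w then (Place.ramificationIndexAlong β' x : ℤ) else 0)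
      = if v.restrictAlong α hα = w.restrictAlong β hβ
          then (Place.ramificationIndexAlong β w : ℤ) else 0 := by
  classical
  have hdiag : ∀ x : Place K M, (x.restrictAlong β' hβ').restrictAlong α hα
      = (x.restrictAlong α' hα').restrictAlong β hβ := by
    intro x
    apply Place.ext
    ext f
    show β' (α f) ∈ x.toValuationSubring ↔ α' (β f) ∈ x.toValuationSubring
    rw [hsq]
  by_cases huv : v.restrictAlong α hα = w.restrictAlong β hβ
  · rw [if_pos huv]
    obtain ⟨t, ht0, htT⟩ := hWA (Place.fiberAlong α hα (w.restrictAlong β hβ))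
      (fun P => if P = v then 1 else 0)
    have hvT : v ∈ Place.fiberAlong α hα (w.restrictAlong β hβ) := Place.mem_fiberAlong.mpr huv
    have hg : β' t ≠ 0 := (map_ne_zero β').mpr ht0
    have h1 := sum_fiberAlong_ord α' hα' hfinα' hNα' w hg
    have h2 := sum_fiberAlong_ord α hα hfinα hNα (w.restrictAlong β hβ) ht0
    have h2' : (w.restrictAlong β hβ).ord (normAlong α t) = 1 := by
      rw [← h2, Finset.sum_eq_single_of_mem v hvT]
      · rw [htT v hvT, if_pos rfl, hIα]
        simp
      · intro v' hv' hne
        rw [htT v' hv', if_neg hne, zero_mul]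
    rw [hnorm, Place.ord_restrictAlong β hβ w, h2', mul_one] at h1
    rw [← h1, ← Finset.sum_filter]
    have h3 : ∀ x ∈ Place.fiberAlong α' hα' w,
        x.ord (β' t) * (x.inertiaDegAlong α' hα' : ℤ)
          = if x.restrictAlong β' hβ' = v then (Place.ramificationIndexAlong β' x : ℤ)
              else 0 := by
      intro x hx
      have hxT : x.restrictAlong β' hβ' ∈ Place.fiberAlong α hα (w.restrictAlong β hβ) := by
        rw [Place.mem_fiberAlong, hdiag x, Place.mem_fiberAlong.mp hx]
      rw [hIα', Place.ord_restrictAlong β' hβ' x t, htT _ hxT]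
      split_ifs <;> simp
    rw [Finset.sum_congr rfl h3, ← Finset.sum_filter]
    refine Finset.sum_congr ?_ (fun _ _ => rfl)
    ext x
    simp only [Finset.mem_filter, Place.mem_fiberAlong]
    exact and_comm
  · rw [if_neg huv]
    refine Finset.sum_eq_zero fun x hx => ?_
    rw [if_neg]
    intro hxw
    apply huv
    rw [← Place.mem_fiberAlong.mp hx, hdiag x, hxw]

/-- **Base change**: `β^* ∘ α_* = α'_* ∘ β'^*` on divisors. -/
theorem pullback_pushforward_eq
    (α : F →ₐ[K] F') (β : F →ₐ[K] K₁) (α' : K₁ →ₐ[K] M) (β' : F' →ₐ[K] M)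
    (hα : α.toRingHom.IsIntegral) (hβ : β.toRingHom.IsIntegral)
    (hα' : α'.toRingHom.IsIntegral) (hβ' : β'.toRingHom.IsIntegral)
    (hsq : ∀ x : F, α' (β x) = β' (α x))
    (hfinα : FiniteAlong K α) (hNα : NormFormulaAlong K α hfinα)
    (hfinα' : FiniteAlong K α') (hNα' : NormFormulaAlong K α' hfinα')
    (hIα : ∀ v : Place K F', v.inertiaDegAlong α hα = 1)
    (hIα' : ∀ x : Place K M, x.inertiaDegAlong α' hα' = 1)
    (hnorm : ∀ t : F', normAlong α' (β' t) = β (normAlong α t))
    (hWA : ∀ (T : Finset (Place K F')) (n : Place K F' → ℤ),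
      ∃ t : F', t ≠ 0 ∧ ∀ P ∈ T, P.ord t = n P)
    (D : Divisor K F') :
    Divisor.pullbackAlong β hβ (Divisor.pushforwardAlong α hα D)
      = Divisor.pushforwardAlong α' hα' (Divisor.pullbackAlong β' hβ' D) := by
  classical
  induction D using Finsupp.induction with
  | zero => simp
  | single_add v n D _ _ ih =>
    rw [map_add, map_add, map_add, map_add, ih]
    congr 1
    ext w
    have key := sum_ramificationIndex_fiber α β α' β' hα hβ hα' hβ' hsq hfinα hNα hfinα' hNα'
      hIα hIα' hnorm hWA v w
    rw [Divisor.pullbackAlong_apply, Divisor.pushforwardAlong_single, hIα,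
      Divisor.pullbackAlong_single, map_sum, Finsupp.finsetSum_apply]
    simp only [Divisor.pushforwardAlong_single, hIα', Finsupp.single_apply]
    have hR : ∀ x : Place K M,
        (if x.restrictAlong α' hα' = w
            then n * (Place.ramificationIndexAlong β' x : ℤ) * ((1 : ℕ) : ℤ) else 0)
          = n * (if x.restrictAlong α' hα' = w
              then (Place.ramificationIndexAlong β' x : ℤ) else 0) := by
      intro x
      split_ifs <;> simp
    rw [Finset.sum_congr rfl (fun x _ => hR x), ← Finset.mul_sum, key]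
    split_ifs <;> simp [mul_comm]

end Square

end Fermat.Agent.S29.H60
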