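/-
Program A (S29 / S42), helper60: **generation of the modular function field**:
`F_P = ℚ̄(j, j_P)` (every intermediate field containing `j` and `j(q^P)` is everything).

Proof: the `|X|` local embeddings `φ x : F_P → ℂ((z))` (landed S24, centre `0`) agree on
`ℚ̄(j)` and take pairwise distinct values at `j_P` (`transl_injective` + identity theorem), so
the minimal polynomial of `j_P` over `ℚ̄(j)` has degree `≥ |X| = [F_P : ℚ̄(j)]`.
-/
import Fermat.Agent.S18.H87.Index

set_option autoImplicit false

open AlgebraicCurve ModularCurve UpperHalfPlane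
open scoped MatrixGroups Manifold

noncomputable section

namespace Fermat.Agent.S29.H60

open Fermat.Agent.S24

/-- The identity theorem for Taylor expansions: two holomorphic functions on `ℍ` with the same
Taylor expansion at a point are equal. -/
theorem eq_of_taylorAt_eq (τ₀ : ℍ) {f g : ℍ → ℂ} (hf : MDiff f) (hg : MDiff g)
    (h : taylorAt τ₀ f = taylorAt τ₀ g) : f = g := by
  have hc : MDiff (fun _ : ℍ => (-1 : ℂ)) := mdifferentiable_const
  have hcg : MDiff ((fun _ : ℍ => (-1 : ℂ)) * g) := hc.mul hg
  have h0 : taylorAt τ₀ (f + (fun _ : ℍ => (-1 : ℂ)) * g) = 0 := by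
    rw [taylorAt_add τ₀ hf hcg, taylorAt_mul τ₀ hc hg, taylorAt_const, h]
    simp
  have h1 := (taylorAt_eq_zero_iff τ₀ (hf.add hcg)).mp h0
  funext τ
  have h2 := congrFun h1 τ
  simp only [Pi.add_apply, Pi.mul_apply, Pi.zero_apply] at h2
  linear_combination h2

/-- **Generation**: an intermediate field of `F_P / ℚ̄` containing `j` and `j(q^P)` is `⊤`. -/
theorem eq_top_of_jgen_mem_of_jtop_mem (P : ℕ) [NeZero P] (E : IntermediateField Kbar (FF P))
    (h1 : jgen P ∈ E) (h2 : jF P (topDiv P) ∈ E) : E = ⊤ := by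
  classical
  haveI : Fintype (XX P) := Fintype.ofFinite _
  haveI : Nonempty (XX P) := ⟨QuotientGroup.mk 1⟩
  obtain ⟨L, -, hL⟩ := exists_localData_fin P (0 : Kbar)
  have hR : ∀ f : FF P, ∃ a ∈ (evF P).range, ∃ b ∈ (evF P).range, b ≠ 0 ∧ f = a / b := by
    intro f
    obtain ⟨A, B, hB, hf⟩ := evF_frac P f
    exact ⟨evF P A, ⟨A, rfl⟩, evF P B, ⟨B, rfl⟩, hB, hf⟩
  obtain ⟨hfd, hdeg⟩ := Fermat.Agent.S18.H87.finrank_adjoin_eq_card L hR
  set Kπ : IntermediateField Kbar (FF P) :=
    IntermediateField.adjoin Kbar {jgen P - algebraMap Kbar (FF P) 0} with hKπ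
  set y : FF P := jF P (topDiv P) with hy
  obtain ⟨x₀⟩ := (inferInstance : Nonempty (XX P))
  -- the common restriction of the embeddings to `Kπ`
  let ι₀ : Kπ →+* LaurentSeries ℂ := (L.φ x₀).comp (algebraMap Kπ (FF P))
  have hι : ∀ x : XX P, (L.φ x).comp (algebraMap Kπ (FF P)) = ι₀ := by
    intro x
    refine RingHom.ext fun e => ?_
    exact Fermat.Agent.S18.H87.phi_eq_of_mem_adjoin L x x₀ e.2
  have hyint : IsIntegral Kπ y := IsIntegral.of_finite Kπ y
  -- every `φ x y` is a root of the image of the minimal polynomial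
  have hroot : ∀ x : XX P, ((minpoly Kπ y).map ι₀).IsRoot (L.φ x y) := by
    intro x
    rw [Polynomial.IsRoot, Polynomial.eval_map, ← hι x, ← Polynomial.hom_eval₂]
    have h0 : Polynomial.eval₂ (algebraMap Kπ (FF P)) y (minpoly Kπ y) = 0 := minpoly.aeval Kπ y
    rw [h0, map_zero]
  -- the values `φ x y` are pairwise distinct
  have hinj : Function.Injective fun x : XX P => L.φ x y := by
    intro x x' hxx'
    have hev : y = evF P (MvPolynomial.X (topDiv P)) :=
      (MvPolynomial.aeval_X (jF P) (topDiv P)).symm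
    have hxx'' : L.φ x y = L.φ x' y := hxx'
    rw [hev, hL, hL] at hxx''
    have h3 := HahnSeries.ofPowerSeries_injective hxx''
    exact transl_injective P (eq_of_taylorAt_eq _ (mdiff_transl P x _) (mdiff_transl P x' _) h3)
  have hne : (minpoly Kπ y).map ι₀ ≠ 0 :=
    (Polynomial.map_ne_zero_iff ι₀.injective).mpr (minpoly.ne_zero hyint)
  have hcard : Fintype.card (XX P) ≤ (minpoly Kπ y).natDegree := by
    have hsub : (Finset.univ.image fun x : XX P => L.φ x y)
        ⊆ ((minpoly Kπ y).map ι₀).roots.toFinset := by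
      intro z hz
      obtain ⟨x, -, rfl⟩ := Finset.mem_image.mp hz
      exact Multiset.mem_toFinset.mpr ((Polynomial.mem_roots hne).mpr (hroot x))
    calc Fintype.card (XX P) = (Finset.univ.image fun x : XX P => L.φ x y).card := by
          rw [Finset.card_image_of_injective _ hinj, Finset.card_univ]
      _ ≤ ((minpoly Kπ y).map ι₀).roots.toFinset.card := Finset.card_le_card hsub
      _ ≤ ((minpoly Kπ y).map ι₀).roots.card := Multiset.toFinset_card_le _
      _ ≤ ((minpoly Kπ y).map ι₀).natDegree := Polynomial.card_roots' _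
      _ = (minpoly Kπ y).natDegree := Polynomial.natDegree_map ι₀
  -- hence `Kπ(y) = ⊤`
  have htop : IntermediateField.adjoin Kπ {y} = ⊤ := by
    refine IntermediateField.eq_of_le_of_finrank_le le_top ?_
    rw [IntermediateField.finrank_top', hdeg, IntermediateField.adjoin.finrank hyint]
    exact hcard
  -- transfer to `E`
  have hπE : jgen P - algebraMap Kbar (FF P) 0 ∈ E := by
    rw [map_zero, sub_zero]
    exact h1
  have hKπE : Kπ ≤ E := by
    rw [hKπ, IntermediateField.adjoin_le_iff]
    exact Set.singleton_subset_iff.mpr hπE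
  rw [eq_top_iff]
  intro f _
  have hf : f ∈ IntermediateField.adjoin Kπ {y} := by
    rw [htop]
    exact IntermediateField.mem_top
  induction hf using IntermediateField.adjoin_induction with
  | mem a ha =>
    rw [Set.mem_singleton_iff.mp ha]
    exact h2
  | algebraMap a => exact hKπE a.2
  | add a b _ _ ha hb => exact add_mem (ha trivial) (hb trivial)
  | inv a _ ha => exact inv_mem (ha trivial)
  | mul a b _ _ ha hb => exact mul_mem (ha trivial) (hb trivial)

end Fermat.Agent.S29.H60
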