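/-
Program A (S29 / S42), helper60: **base change of norms**.

For a commutative square of fields `F → F'` (finite), `K₁ → M`, `β : F → K₁`, `β' : F' → M` with
`[F' : F] = [M : K₁]` and `M` spanned over `K₁` by `β'(F')` (a "cartesian" square),
`N_{M/K₁}(β' t) = β (N_{F'/F} t)`.
-/
import Mathlib.RingTheory.Norm.Basic
import Mathlib.LinearAlgebra.Dimension.OrzechProperty
import Mathlib.LinearAlgebra.FiniteDimensional.Lemmas
import Mathlib.LinearAlgebra.Matrix.Determinant.Basic

set_option autoImplicit false

noncomputable section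

namespace Fermat.Agent.S29.H60

/-- **Base change of norms** in a cartesian square of fields. -/
theorem norm_baseChange {F F' K₁ M : Type*} [Field F] [Field F'] [Field K₁] [Field M]
    [Algebra F F'] [Algebra K₁ M] [Module.Finite F F']
    (β : F →+* K₁) (β' : F' →+* M)
    (hcomm : ∀ a : F, β' (algebraMap F F' a) = algebraMap K₁ M (β a))
    (hrank : Module.finrank F F' = Module.finrank K₁ M)
    (hspan : Submodule.span K₁ (Set.range β') = ⊤) (t : F') :
    Algebra.norm K₁ (β' t) = β (Algebra.norm F t) := by
  classical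
  let b := Module.finBasis F F'
  let v : Fin (Module.finrank F F') → M := fun i => β' (b i)
  have hexp : ∀ x : F', β' x = ∑ i, β (b.repr x i) • v i := by
    intro x
    conv_lhs => rw [← b.sum_repr x]
    rw [map_sum]
    refine Finset.sum_congr rfl fun i _ => ?_
    rw [Algebra.smul_def, map_mul, hcomm, Algebra.smul_def]
  have hv : ⊤ ≤ Submodule.span K₁ (Set.range v) := by
    rw [← hspan, Submodule.span_le]
    rintro _ ⟨x, rfl⟩
    rw [hexp x]
    exact Submodule.sum_mem _ fun i _ =>
      Submodule.smul_mem _ _ (Submodule.subset_span ⟨i, rfl⟩)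
  have hcard : Fintype.card (Fin (Module.finrank F F')) = Module.finrank K₁ M := by
    rw [Fintype.card_fin]
    exact hrank
  let b' : Module.Basis (Fin (Module.finrank F F')) K₁ M :=
    basisOfTopLeSpanOfCardEqFinrank v hv hcard
  have hb' : ∀ i, b' i = v i := fun i => by
    simp only [b', coe_basisOfTopLeSpanOfCardEqFinrank]
  have hrepr : ∀ (x : F') (i : Fin (Module.finrank F F')), b'.repr (β' x) i = β (b.repr x i) := by
    intro x i
    have h1 : β' x = ∑ j, β (b.repr x j) • b' j := by
      rw [hexp x]
      exact Finset.sum_congr rfl fun j _ => by rw [hb' j]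
    rw [h1, Module.Basis.repr_sum_self]
  rw [Algebra.norm_eq_matrix_det b', Algebra.norm_eq_matrix_det b, RingHom.map_det]
  congr 1
  ext i j
  rw [Algebra.leftMulMatrix_eq_repr_mul, RingHom.mapMatrix_apply, Matrix.map_apply,
    Algebra.leftMulMatrix_eq_repr_mul, hb' j]
  show b'.repr (β' t * β' (b j)) i = β (b.repr (t * b j) i)
  rw [← map_mul, hrepr]

end Fermat.Agent.S29.H60
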