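/-
Program A (S29 / S42), helper60: the Hecke correspondences `T_ℓ`, `T_ℓ'` commute on DIVISORS of
the modular function field of level `N` (`heckeDiv_comm`), for distinct primes; the `Pic⁰`
statement `HeckeOperatorsCommuteBar N` is in `Commute.lean`.

`T_ℓ = (α_{N,ℓ})_* (β_{N,ℓ})^*` on divisors.  For `ℓ ≠ ℓ'` both `T_ℓ T_ℓ'` and `T_ℓ' T_ℓ` are the
correspondence through the level `N ℓ ℓ'` given by the inclusion and `q ↦ q^{ℓ ℓ'}`:
base change (`BaseChange.lean`) in the square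

      F_N     --α_{N,ℓ'}-->  F_{Nℓ'}
       |β_{N,ℓ}               |q ↦ q^ℓ
       v                      v
      F_{Nℓ}  --incl------->  F_{Nℓℓ'}

whose cartesian-ness is: equal degrees (landed `ψ`-index formulas) and
`F_{Nℓℓ'} = F_{Nℓ} · (F_{Nℓ'})(q^ℓ)` (`Generation.lean`: the right side contains `j` and
`j(q^{Nℓℓ'})`).
-/
import Fermat.Prelude.Def_ModularCurve_HeckeModule
import Fermat.Prelude.Thm_ModularCurve_coeffMap_qExpand
import Fermat.Agent.S29.H60.BaseChange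
import Fermat.Agent.S29.H60.NormBC
import Fermat.Agent.S29.H60.Generation
import Fermat.Agent.S37.H87.HeckeDegree
import Fermat.Agent.S37.H75.ModularFibre
import Fermat.Agent.S18.H17.WeakApprox

set_option autoImplicit false

open AlgebraicCurve ModularCurve

noncomputable section

namespace Fermat.Agent.S29.H60

open Fermat.Agent.S24

attribute [local instance] Fermat.Agent.S37.H75.hasPrincipalDivisors_FF

section Package

variable {A B : ℕ} [NeZero A] [NeZero B] (φ : FF A →ₐ[Kbar] FF B)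

/-- Every `ℚ̄`-embedding of modular function fields is integral. -/
theorem isIntegral_FF : φ.toRingHom.IsIntegral :=
  Fermat.Agent.S37.H75.isIntegral_along_of_isFunctionField
    (Fermat.Agent.S37.H75.isFunctionField_FF B) φ (Fermat.Agent.S37.H75.transcendental_jgen A)

/-- Every `ℚ̄`-embedding of modular function fields is finite. -/
theorem finiteAlong_FF : FiniteAlong Kbar φ :=
  Fermat.Agent.S37.H75.finiteAlong_of_isFunctionField
    (Fermat.Agent.S37.H75.isFunctionField_FF B) φ (Fermat.Agent.S37.H75.transcendental_jgen A)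

/-- The norm formula along every `ℚ̄`-embedding of modular function fields. -/
theorem normFormulaAlong_FF : NormFormulaAlong Kbar φ (finiteAlong_FF φ) :=
  Fermat.Agent.S37.H75.normFormulaAlong φ _ (Fermat.Agent.S37.H75.deg_eq_one_FF A)
    (Fermat.Agent.S37.H75.deg_eq_one_FF B)

/-- Inertia degrees are one. -/
theorem inertiaDegAlong_FF (w : Place Kbar (FF B)) :
    w.inertiaDegAlong φ (isIntegral_FF φ) = 1 :=
  Fermat.Agent.S37.H75.inertiaDegAlong_eq_one φ _ (Fermat.Agent.S37.H75.deg_eq_one_FF A)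
    (Fermat.Agent.S37.H75.deg_eq_one_FF B) w

end Package

/-- Weak approximation in a modular function field. -/
theorem weakApprox_FF (B : ℕ) [NeZero B] (T : Finset (Place Kbar (FF B)))
    (n : Place Kbar (FF B) → ℤ) : ∃ t : FF B, t ≠ 0 ∧ ∀ P ∈ T, P.ord t = n P := by
  haveI : FiniteDimensional (IntermediateField.adjoin Kbar {jgen B}) (FF B) :=
    (Fermat.Agent.S18.H87.finrank_adjoin_jgen B).1
  exact Fermat.Agent.S18.H17.exists_ord_eq_finset (jgen B)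
    (Fermat.Agent.S37.H75.transcendental_jgen B) T n

section Maps

/-- The inclusion `F_A → F_B` for `A ∣ B`. -/
def inclFF {A B : ℕ} [NeZero A] [NeZero B] (h : A ∣ B) : FF A →ₐ[Kbar] FF B :=
  IntermediateField.inclusion (Fermat.Agent.S18.H87.modularFunctionFieldBar_mono h)

theorem coe_inclFF {A B : ℕ} [NeZero A] [NeZero B] (h : A ∣ B) (x : FF A) :
    ((inclFF h x : FF B) : LaurentSeries Kbar) = (x : LaurentSeries Kbar) :=
  IntermediateField.coe_inclusion _ x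

/-- The map `q ↦ q^m`, `F_A → F_B`, for `A * m ∣ B`. -/
def qFF {A B : ℕ} [NeZero A] [NeZero B] (m : ℕ) [NeZero m] (h : A * m ∣ B) :
    FF A →ₐ[Kbar] FF B :=
  (inclFF h).comp (heckeBetaBar Kbar A m)

theorem qFF_apply {A B : ℕ} [NeZero A] [NeZero B] (m : ℕ) [NeZero m] (h : A * m ∣ B) (x : FF A) :
    qFF m h x = inclFF h (heckeBetaBar Kbar A m x) :=
  AlgHom.comp_apply _ _ x

theorem coe_qFF {A B : ℕ} [NeZero A] [NeZero B] (m : ℕ) [NeZero m] (h : A * m ∣ B) (x : FF A) :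
    ((qFF m h x : FF B) : LaurentSeries Kbar) = qExpand Kbar m (x : LaurentSeries Kbar) := by
  rw [qFF_apply, coe_inclFF, coe_heckeBetaBar]

theorem qExpand_congr {R : Type*} [CommRing R] {a b : ℕ} [NeZero a] [NeZero b] (h : a = b)
    (f : LaurentSeries R) : qExpand R a f = qExpand R b f := by
  subst h
  rfl

end Maps

section Square

variable (N ℓ ℓ' P : ℕ) [NeZero N] [NeZero ℓ] [NeZero ℓ'] [NeZero P]

/-- The square commutes. -/
theorem sq_comm (h1 : N * ℓ ∣ P) (h2 : N * ℓ' * ℓ ∣ P) (x : FF N) :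
    inclFF h1 (heckeBetaBar Kbar N ℓ x) = qFF ℓ h2 (heckeAlphaBar Kbar N ℓ' x) := by
  apply Subtype.ext
  rw [coe_inclFF, coe_qFF, coe_heckeBetaBar, coe_heckeAlphaBar]

/-- The two horizontal maps of the square have the same degree. -/
theorem finrankAlong_sq (hℓ : ℓ.Prime) (hℓ' : ℓ'.Prime) (hne : ℓ ≠ ℓ') (h1 : N * ℓ ∣ P)
    (hP : N * ℓ' * ℓ = P) :
    finrankAlong Kbar (heckeAlphaBar Kbar N ℓ')
      = finrankAlong Kbar (inclFF h1 : FF (N * ℓ) →ₐ[Kbar] FF P) := by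
  have hA := Fermat.Agent.S37.H87.finrankAlong_alpha N ℓ'
  have hB : finrankAlong Kbar (inclFF h1 : FF (N * ℓ) →ₐ[Kbar] FF P) * dedekindPsi (N * ℓ)
      = dedekindPsi P :=
    (Fermat.Agent.S18.H87.finrank_FN (N * ℓ) P
      (Fermat.Agent.S18.H87.modularFunctionFieldBar_mono h1)).2
  have hN0 : N ≠ 0 := NeZero.ne N
  have hψN : 0 < dedekindPsi N := Fermat.Agent.S18.H87.dedekindPsi_pos N
  have hdvd : ℓ ∣ N * ℓ' ↔ ℓ ∣ N := by
    constructor
    · intro h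
      rcases (Nat.Prime.dvd_mul hℓ).mp h with h | h
      · exact h
      · exact absurd ((Nat.prime_dvd_prime_iff_eq hℓ hℓ').mp h) hne
    · intro h
      exact Dvd.dvd.mul_right h ℓ'
  replace hB : finrankAlong Kbar (inclFF h1 : FF (N * ℓ) →ₐ[Kbar] FF P) * dedekindPsi (N * ℓ)
      = dedekindPsi (N * ℓ' * ℓ) := by
    rw [hP]
    exact hB
  by_cases hℓN : ℓ ∣ N
  · have e1 := Fermat.Agent.S20.H77.dedekindPsi_mul_prime_of_dvd hℓ hN0 hℓN
    have e2 := Fermat.Agent.S20.H77.dedekindPsi_mul_prime_of_dvd hℓ (N := N * ℓ')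
      (mul_ne_zero hN0 (NeZero.ne ℓ')) (hdvd.mpr hℓN)
    rw [e1, e2, ← hA] at hB
    have h3 : finrankAlong Kbar (inclFF h1 : FF (N * ℓ) →ₐ[Kbar] FF P) * (ℓ * dedekindPsi N)
        = finrankAlong Kbar (heckeAlphaBar Kbar N ℓ') * (ℓ * dedekindPsi N) := by
      rw [hB]
      ring
    exact (Nat.eq_of_mul_eq_mul_right (Nat.mul_pos hℓ.pos hψN) h3).symm
  · have e1 := Fermat.Agent.S20.H77.dedekindPsi_mul_prime_of_not_dvd hℓ hN0 hℓN
    have e2 := Fermat.Agent.S20.H77.dedekindPsi_mul_prime_of_not_dvd hℓ (N := N * ℓ')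
      (mul_ne_zero hN0 (NeZero.ne ℓ')) (fun h => hℓN (hdvd.mp h))
    rw [e1, e2, ← hA] at hB
    have h3 : finrankAlong Kbar (inclFF h1 : FF (N * ℓ) →ₐ[Kbar] FF P)
          * ((ℓ + 1) * dedekindPsi N)
        = finrankAlong Kbar (heckeAlphaBar Kbar N ℓ') * ((ℓ + 1) * dedekindPsi N) := by
      rw [hB]
      ring
    exact (Nat.eq_of_mul_eq_mul_right (Nat.mul_pos (Nat.succ_pos ℓ) hψN) h3).symm

/-- The top field is spanned over `F_{Nℓ}` by the image of `F_{Nℓ'}` under `q ↦ q^ℓ`. -/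
theorem span_range_qFF (h1 : N * ℓ ∣ P) (hP : N * ℓ' * ℓ = P) :
    letI := algebraAlong (inclFF h1 : FF (N * ℓ) →ₐ[Kbar] FF P)
    Submodule.span (FF (N * ℓ))
      (Set.range (qFF ℓ (dvd_of_eq hP) : FF (N * ℓ') →ₐ[Kbar] FF P)) = ⊤ := by
  letI := algebraAlong (inclFF h1 : FF (N * ℓ) →ₐ[Kbar] FF P)
  haveI := isScalarTower_along (inclFF h1 : FF (N * ℓ) →ₐ[Kbar] FF P)
  haveI : Module.Finite (FF (N * ℓ)) (FF P) := finiteAlong_FF (inclFF h1)
  have hjgen : jgen P = algebraMap (FF (N * ℓ)) (FF P) (jgen (N * ℓ)) := by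
    show jgen P = inclFF h1 (jgen (N * ℓ))
    apply Subtype.ext
    rw [coe_inclFF]
    rfl
  have hjtop : jF P (topDiv P)
      = (qFF ℓ (dvd_of_eq hP) : FF (N * ℓ') →ₐ[Kbar] FF P) (jF (N * ℓ') (topDiv (N * ℓ'))) := by
    apply Subtype.ext
    rw [coe_qFF]
    show coeffEmb Kbar (qExpand ℚ P jq) = qExpand Kbar ℓ (coeffEmb Kbar (qExpand ℚ (N * ℓ') jq))
    rw [coeffEmb, ← ModularCurve.coeffMap_qExpand, qExpand_qExpand]
    exact congrArg _ (qExpand_congr (by rw [← hP]; ring) jq)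
  have hE₁ : IntermediateField.adjoin (FF (N * ℓ))
      (Set.range (qFF ℓ (dvd_of_eq hP) : FF (N * ℓ') →ₐ[Kbar] FF P)) = ⊤ := by
    rw [← IntermediateField.restrictScalars_eq_top_iff (K := Kbar)]
    apply eq_top_of_jgen_mem_of_jtop_mem P
    · rw [IntermediateField.mem_restrictScalars, hjgen]
      exact IntermediateField.algebraMap_mem _ _
    · rw [IntermediateField.mem_restrictScalars, hjtop]
      exact IntermediateField.subset_adjoin _ _ ⟨_, rfl⟩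
  have hsub : ((Submonoid.closure
      (Set.range (qFF ℓ (dvd_of_eq hP) : FF (N * ℓ') →ₐ[Kbar] FF P)) : Submonoid (FF P)) :
        Set (FF P))
      ⊆ (Submodule.span (FF (N * ℓ))
        (Set.range (qFF ℓ (dvd_of_eq hP) : FF (N * ℓ') →ₐ[Kbar] FF P)) : Set (FF P)) := by
    have hle : Submonoid.closure
        (Set.range (qFF ℓ (dvd_of_eq hP) : FF (N * ℓ') →ₐ[Kbar] FF P))
        ≤ MonoidHom.mrange
          ((qFF ℓ (dvd_of_eq hP) : FF (N * ℓ') →ₐ[Kbar] FF P) : FF (N * ℓ') →* FF P) := by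
      rw [Submonoid.closure_le]
      rintro _ ⟨x, rfl⟩
      exact ⟨x, rfl⟩
    intro m hm
    obtain ⟨x, rfl⟩ := hle hm
    exact Submodule.subset_span ⟨x, rfl⟩
  have h3 := Algebra.adjoin_eq_span_of_subset (FF (N * ℓ)) hsub
  have h4 := IntermediateField.adjoin_toSubalgebra (F := FF (N * ℓ)) (E := FF P)
    (Set.range (qFF ℓ (dvd_of_eq hP) : FF (N * ℓ') →ₐ[Kbar] FF P))
  rw [← h3, ← h4, hE₁]
  rfl

/-- **Norm compatibility** in the square. -/
theorem norm_sq (hℓ : ℓ.Prime) (hℓ' : ℓ'.Prime) (hne : ℓ ≠ ℓ') (h1 : N * ℓ ∣ P)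
    (hP : N * ℓ' * ℓ = P) (t : FF (N * ℓ')) :
    normAlong (inclFF h1 : FF (N * ℓ) →ₐ[Kbar] FF P)
        ((qFF ℓ (dvd_of_eq hP) : FF (N * ℓ') →ₐ[Kbar] FF P) t)
      = heckeBetaBar Kbar N ℓ (normAlong (heckeAlphaBar Kbar N ℓ') t) := by
  letI i1 := algebraAlong (heckeAlphaBar Kbar N ℓ')
  letI i2 := algebraAlong (inclFF h1 : FF (N * ℓ) →ₐ[Kbar] FF P)
  haveI : Module.Finite (FF N) (FF (N * ℓ')) := finiteAlong_FF (heckeAlphaBar Kbar N ℓ')
  show Algebra.norm (FF (N * ℓ)) ((qFF ℓ (dvd_of_eq hP) : FF (N * ℓ') →ₐ[Kbar] FF P) t)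
    = heckeBetaBar Kbar N ℓ (Algebra.norm (FF N) t)
  exact norm_baseChange (heckeBetaBar Kbar N ℓ : FF N →+* FF (N * ℓ))
    ((qFF ℓ (dvd_of_eq hP) : FF (N * ℓ') →ₐ[Kbar] FF P) : FF (N * ℓ') →+* FF P)
    (fun a => (sq_comm N ℓ ℓ' P h1 (dvd_of_eq hP) a).symm)
    (finrankAlong_sq N ℓ ℓ' P hℓ hℓ' hne h1 hP) (span_range_qFF N ℓ ℓ' P h1 hP) t

/-- **Base change in the modular square.** -/
theorem modular_baseChange (hℓ : ℓ.Prime) (hℓ' : ℓ'.Prime) (hne : ℓ ≠ ℓ') (h1 : N * ℓ ∣ P)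
    (hP : N * ℓ' * ℓ = P) (D : Divisor Kbar (FF (N * ℓ'))) :
    Divisor.pullbackAlong (heckeBetaBar Kbar N ℓ) (isIntegral_FF _)
        (Divisor.pushforwardAlong (heckeAlphaBar Kbar N ℓ') (isIntegral_FF _) D)
      = Divisor.pushforwardAlong (inclFF h1 : FF (N * ℓ) →ₐ[Kbar] FF P) (isIntegral_FF _)
        (Divisor.pullbackAlong (qFF ℓ (dvd_of_eq hP) : FF (N * ℓ') →ₐ[Kbar] FF P)
          (isIntegral_FF _) D) :=
  pullback_pushforward_eq (heckeAlphaBar Kbar N ℓ') (heckeBetaBar Kbar N ℓ) (inclFF h1)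
    (qFF ℓ (dvd_of_eq hP)) (isIntegral_FF _) (isIntegral_FF _) (isIntegral_FF _)
    (isIntegral_FF _) (sq_comm N ℓ ℓ' P h1 (dvd_of_eq hP)) (finiteAlong_FF _)
    (normFormulaAlong_FF _) (finiteAlong_FF _) (normFormulaAlong_FF _)
    (inertiaDegAlong_FF _) (inertiaDegAlong_FF _) (norm_sq N ℓ ℓ' P hℓ hℓ' hne h1 hP)
    (weakApprox_FF (N * ℓ')) D

end Square

section Assembly

variable (N : ℕ) [NeZero N]

/-- The two Hecke correspondences commute on divisors. -/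
theorem heckeDiv_comm (ℓ ℓ' : ℕ) [NeZero ℓ] [NeZero ℓ'] (hℓ : ℓ.Prime) (hℓ' : ℓ'.Prime)
    (hne : ℓ ≠ ℓ') (D : Divisor Kbar (FF N)) :
    Divisor.pushforwardAlong (heckeAlphaBar Kbar N ℓ) (isIntegral_FF _)
        (Divisor.pullbackAlong (heckeBetaBar Kbar N ℓ) (isIntegral_FF _)
          (Divisor.pushforwardAlong (heckeAlphaBar Kbar N ℓ') (isIntegral_FF _)
            (Divisor.pullbackAlong (heckeBetaBar Kbar N ℓ') (isIntegral_FF _) D)))
      = Divisor.pushforwardAlong (heckeAlphaBar Kbar N ℓ') (isIntegral_FF _)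
        (Divisor.pullbackAlong (heckeBetaBar Kbar N ℓ') (isIntegral_FF _)
          (Divisor.pushforwardAlong (heckeAlphaBar Kbar N ℓ) (isIntegral_FF _)
            (Divisor.pullbackAlong (heckeBetaBar Kbar N ℓ) (isIntegral_FF _) D))) := by
  have h1 : N * ℓ ∣ N * ℓ * ℓ' := dvd_mul_right _ _
  have hP : N * ℓ' * ℓ = N * ℓ * ℓ' := Nat.mul_right_comm N ℓ' ℓ
  have h1' : N * ℓ' ∣ N * ℓ * ℓ' := ⟨ℓ, hP.symm⟩
  have hP' : N * ℓ * ℓ' = N * ℓ * ℓ' := rfl
  have hN : N ∣ N * ℓ * ℓ' := ⟨ℓ * ℓ', Nat.mul_assoc N ℓ ℓ'⟩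
  -- the diagonal maps
  set ι : FF N →ₐ[Kbar] FF (N * ℓ * ℓ') := inclFF hN with hι
  set κ : FF N →ₐ[Kbar] FF (N * ℓ * ℓ') :=
    (qFF ℓ (dvd_of_eq hP) : FF (N * ℓ') →ₐ[Kbar] FF (N * ℓ * ℓ')).comp (heckeBetaBar Kbar N ℓ')
    with hκ
  have hκ' : ∀ x : FF N, κ x
      = (qFF ℓ' (dvd_of_eq hP') : FF (N * ℓ) →ₐ[Kbar] FF (N * ℓ * ℓ'))
          (heckeBetaBar Kbar N ℓ x) := by
    intro x
    apply Subtype.ext
    rw [hκ, AlgHom.comp_apply, coe_qFF, coe_qFF, coe_heckeBetaBar, coe_heckeBetaBar,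
      qExpand_qExpand, qExpand_qExpand]
    exact qExpand_congr (Nat.mul_comm ℓ ℓ') _
  have hι1 : ∀ x : FF N, ι x = inclFF h1 (heckeAlphaBar Kbar N ℓ x) := fun x =>
    Subtype.ext (by rw [hι, coe_inclFF, coe_inclFF, coe_heckeAlphaBar])
  have hι2 : ∀ x : FF N, ι x = inclFF h1' (heckeAlphaBar Kbar N ℓ' x) := fun x =>
    Subtype.ext (by rw [hι, coe_inclFF, coe_inclFF, coe_heckeAlphaBar])
  rw [modular_baseChange N ℓ ℓ' (N * ℓ * ℓ') hℓ hℓ' hne h1 hP,
    modular_baseChange N ℓ' ℓ (N * ℓ * ℓ') hℓ' hℓ hne.symm h1' hP',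
    ← pushforwardAlong_comp (heckeAlphaBar Kbar N ℓ) (inclFF h1) ι (isIntegral_FF _)
      (isIntegral_FF _) (isIntegral_FF _) hι1 (inertiaDegAlong_FF _)
      (inertiaDegAlong_FF _) (inertiaDegAlong_FF _),
    ← pushforwardAlong_comp (heckeAlphaBar Kbar N ℓ') (inclFF h1') ι (isIntegral_FF _)
      (isIntegral_FF _) (isIntegral_FF _) hι2 (inertiaDegAlong_FF _)
      (inertiaDegAlong_FF _) (inertiaDegAlong_FF _),
    ← pullbackAlong_comp (heckeBetaBar Kbar N ℓ') (qFF ℓ (dvd_of_eq hP)) κ (isIntegral_FF _)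
      (isIntegral_FF _) (isIntegral_FF _) (fun x => AlgHom.comp_apply _ _ x),
    ← pullbackAlong_comp (heckeBetaBar Kbar N ℓ) (qFF ℓ' (dvd_of_eq hP')) κ (isIntegral_FF _)
      (isIntegral_FF _) (isIntegral_FF _) hκ']

end Assembly

end Fermat.Agent.S29.H60
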