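/-
Program A (S29 / S42), helper60: **the Hecke operators on `J₀(N)(ℚ̄)` commute**,
`ModularCurve.HeckeOperatorsCommuteBar N` (the first hypothesis of the frozen S37), for every
level `N` and ALL primes; from `heckeDiv_comm` (`CommuteDiv.lean`).
-/
import Fermat.Agent.S29.H60.CommuteDiv

set_option autoImplicit false

open AlgebraicCurve ModularCurve

noncomputable section

namespace Fermat.Agent.S29.H60

open Fermat.Agent.S24

section Assembly

variable (N : ℕ) [NeZero N]

attribute [local instance] Fermat.Agent.S37.H75.hasPrincipalDivisors_FF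

/-- The Prelude's Hecke operator on a class, as the explicit divisor correspondence. -/
theorem heckeOperatorAlong_mk' (ℓ : ℕ) [NeZero ℓ] (D : Divisor.degZero (K := Kbar) (F := FF N)) :
    ∃ D' : Divisor.degZero (K := Kbar) (F := FF N),
      heckeOperatorAlong Kbar N ℓ (Pic0.mk D) = Pic0.mk D' ∧
      (D' : Divisor Kbar (FF N)) = Divisor.pushforwardAlong (heckeAlphaBar Kbar N ℓ) (isIntegral_FF _)
        (Divisor.pullbackAlong (heckeBetaBar Kbar N ℓ) (isIntegral_FF _) (D : Divisor Kbar (FF N))) := by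
  obtain ⟨hα, hβ, hPD, hfin, hFI, hN⟩ := Fermat.Agent.S37.H75.heckeInputsAlong N ℓ
  rw [heckeOperatorAlong_eq hα hβ hFI hfin hN]
  exact ⟨_, Pic0.correspondence_mk _ _ hβ hα hFI hfin hN D, rfl⟩

/-- **The Hecke operators on `J₀(N)(ℚ̄)` commute** (all primes, every level): the first
hypothesis of the frozen S37, unconditionally. -/
theorem heckeOperatorsCommuteBar : HeckeOperatorsCommuteBar N := by
  intro ℓ ℓ'
  by_cases hne : ℓ = ℓ'
  · rw [hne]
  haveI : NeZero (ℓ : ℕ) := ⟨ℓ.2.ne_zero⟩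
  haveI : NeZero (ℓ' : ℕ) := ⟨ℓ'.2.ne_zero⟩
  refine LinearMap.ext fun x => ?_
  obtain ⟨D, rfl⟩ := Pic0.mk_surjective x
  rw [Module.End.mul_apply, Module.End.mul_apply, heckeOperatorBar_apply,
    heckeOperatorBar_apply, heckeOperatorBar_apply, heckeOperatorBar_apply]
  obtain ⟨D₁, h1, e1⟩ := heckeOperatorAlong_mk' N ℓ' D
  obtain ⟨D₂, h2, e2⟩ := heckeOperatorAlong_mk' N ℓ D₁
  obtain ⟨D₃, h3, e3⟩ := heckeOperatorAlong_mk' N ℓ D
  obtain ⟨D₄, h4, e4⟩ := heckeOperatorAlong_mk' N ℓ' D₃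
  rw [h1, h2, h3, h4]
  refine congrArg Pic0.mk (Subtype.ext ?_)
  rw [e2, e1, e4, e3]
  exact heckeDiv_comm N ℓ ℓ' ℓ.2 ℓ'.2 (fun h => hne (Subtype.ext h)) D

end Assembly

end Fermat.Agent.S29.H60
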