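/-
Program A (S29 / S42), leaf "Galois commutes with Hecke" (helper60).

* `pushforwardAlong_smul`, `correspondence_smul`, `pic0_correspondence_smul`:
  equivariance of the divisor push-forward and of the Prelude correspondence on `Pic0`
  under a pair of semilinear automorphisms intertwined by both legs;
* `galois_smul_heckeOperatorBar`: `σ • T_ℓ x = T_ℓ (σ • x)` on `JZero N`, every prime `ℓ`,
  no hypothesis;
* `smulCommClass_galois_heckeAlg`: the second hypothesis of the frozen S37, unconditionally.
-/
import Fermat.Prelude.Def_ModularCurve_HeckeModule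
import Fermat.Agent.S37.H77.GalPullback
import Fermat.Agent.S37.H75.ModularFibre

set_option autoImplicit false

open AlgebraicCurve

noncomputable section

namespace Fermat.Agent.S29.H60

section Generic

variable {K F F' : Type*} [Field K] [Field F] [Field F'] [Algebra K F] [Algebra K F']

variable (ψ : F →ₐ[K] F') (hψ : ψ.toRingHom.IsIntegral)
  (g : SemilinearAut K F) (g' : SemilinearAut K F')
  (h : SemilinearAut.IntertwinesAlong (ψ : F →+* F') g g')

include h in
/-- The divisor push-forward is equivariant, as soon as inertia degrees are invariant. -/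
theorem pushforwardAlong_smul
    (hI : ∀ w : Place K F', (g' • w).inertiaDegAlong ψ hψ = w.inertiaDegAlong ψ hψ)
    (E : Divisor K F') :
    Divisor.pushforwardAlong ψ hψ (g' • E) = g • Divisor.pushforwardAlong ψ hψ E := by
  induction E using Finsupp.induction with
  | zero => simp
  | single_add w n E _ _ ih =>
      rw [smul_add, map_add, map_add, smul_add, ih, SemilinearAut.smul_single,
        Divisor.pushforwardAlong_single, Divisor.pushforwardAlong_single,
        SemilinearAut.smul_single, hI w,
        Fermat.Agent.S37.H77.restrictAlong_smul ψ hψ g g' h w]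

end Generic

section Correspondence

variable {K F F' : Type*} [Field K] [Field F] [Field F'] [Algebra K F] [Algebra K F']
variable [HasPrincipalDivisors K F']
variable (φ ψ : F →ₐ[K] F') (hφ : φ.toRingHom.IsIntegral) (hψ : ψ.toRingHom.IsIntegral)
  (g : SemilinearAut K F) (g' : SemilinearAut K F')
  (h₁ : SemilinearAut.IntertwinesAlong (φ : F →+* F') g g')
  (h₂ : SemilinearAut.IntertwinesAlong (ψ : F →+* F') g g')

include h₁ h₂ in
/-- The divisor correspondence `ψ_* φ^*` is equivariant. -/
theorem correspondence_smul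
    (hI : ∀ w : Place K F', (g' • w).inertiaDegAlong ψ hψ = w.inertiaDegAlong ψ hψ)
    (D : Divisor K F) :
    Divisor.correspondence φ ψ hφ hψ (g • D) = g • Divisor.correspondence φ ψ hφ hψ D := by
  rw [Divisor.correspondence_apply, Divisor.correspondence_apply,
    Fermat.Agent.S37.H77.pullbackAlong_smul φ hφ g g' h₁ D,
    pushforwardAlong_smul ψ hψ g g' h₂ hI]

include h₁ h₂ in
/-- The correspondence on `Pic0` is equivariant. -/
theorem pic0_correspondence_smul
    (hFI : FundamentalIdentityAlong K φ hφ) (hfin : FiniteAlong K ψ)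
    (hN : NormFormulaAlong K ψ hfin)
    (hI : ∀ w : Place K F', (g' • w).inertiaDegAlong ψ hψ = w.inertiaDegAlong ψ hψ)
    (x : Pic0 K F) :
    g • Pic0.correspondence φ ψ hφ hψ hFI hfin hN x
      = Pic0.correspondence φ ψ hφ hψ hFI hfin hN (g • x) := by
  obtain ⟨D, rfl⟩ := Pic0.mk_surjective x
  rw [Pic0.correspondence_mk, SemilinearAut.pic0_smul_mk, SemilinearAut.pic0_smul_mk,
    Pic0.correspondence_mk]
  refine congrArg Pic0.mk (Subtype.ext ?_)
  rw [SemilinearAut.coe_degZeroSMulHom, Pic0.coe_degZeroCorrespondence,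
    Pic0.coe_degZeroCorrespondence, SemilinearAut.coe_degZeroSMulHom,
    correspondence_smul φ ψ hφ hψ g g' h₁ h₂ hI]

end Correspondence

section Modular

open ModularCurve

/-- **Galois commutes with the Hecke operators** on `J₀(N)(ℚ̄)`: every prime `ℓ`, no hypothesis. -/
theorem galois_smul_heckeOperatorBar (N : ℕ) [NeZero N] (ℓ : Nat.Primes)
    (σ : AlgebraicClosure ℚ ≃ₐ[ℚ] AlgebraicClosure ℚ) (x : JZero N) :
    σ • heckeOperatorBar N ℓ x = heckeOperatorBar N ℓ (σ • x) := by
  haveI : NeZero (ℓ : ℕ) := ⟨ℓ.2.ne_zero⟩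
  rw [heckeOperatorBar_apply, heckeOperatorBar_apply]
  by_cases hin : HeckeInputsAlong (AlgebraicClosure ℚ) N ℓ
  · obtain ⟨hα, hβ, hP, hfin, hFI, hN⟩ := hin
    rw [heckeOperatorAlong_eq hα hβ hFI hfin hN]
    rw [galois_smul_pic0_def, galois_smul_pic0_def]
    exact pic0_correspondence_smul (heckeBetaBar (AlgebraicClosure ℚ) N ℓ)
      (heckeAlphaBar (AlgebraicClosure ℚ) N ℓ) hβ hα
      (arithmeticGalois (modularFunctionFieldFull N) σ)
      (arithmeticGalois (modularFunctionFieldFull (N * ℓ)) σ)
      (Fermat.Agent.S37.H77.intertwines_beta N ℓ σ)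
      (Fermat.Agent.S37.H77.intertwines_alpha N ℓ σ) hFI hfin hN
      (fun w => by
        rw [Fermat.Agent.S37.H75.inertiaDegAlong_alpha N ℓ hα,
          Fermat.Agent.S37.H75.inertiaDegAlong_alpha N ℓ hα]) x
  · rw [heckeOperatorAlong_of_not hin]
    simp

/-- Galois commutes with every polynomial in the Hecke operators. -/
theorem galois_smul_heckeEvalBar {N : ℕ} [NeZero N] (hc : HeckeOperatorsCommuteBar N)
    (t : HeckeAlg) (σ : AlgebraicClosure ℚ ≃ₐ[ℚ] AlgebraicClosure ℚ) (x : JZero N) :
    σ • heckeEvalBar hc t x = heckeEvalBar hc t (σ • x) := by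
  induction t using MvPolynomial.induction_on generalizing x with
  | C a =>
      rw [heckeEvalBar_C, Module.End.intCast_apply, Module.End.intCast_apply]
      exact map_zsmul (DistribSMul.toAddMonoidHom (JZero N) σ) a x
  | add p q hp hq =>
      rw [map_add, LinearMap.add_apply, LinearMap.add_apply, smul_add, hp, hq]
  | mul_X p ℓ hp =>
      rw [map_mul, Module.End.mul_apply, Module.End.mul_apply, hp]
      congr 1
      have h1 : heckeEvalBar hc (MvPolynomial.X ℓ) = heckeOperatorBar N ℓ :=
        heckeEvalBar_heckeGen hc ℓ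
      rw [h1]
      exact galois_smul_heckeOperatorBar N ℓ σ x

/-- **The second hypothesis of the frozen S37**, unconditionally: the Galois action on
`J₀(N)(ℚ̄)` commutes with the Prelude's `HeckeAlg`-module structure. -/
theorem smulCommClass_galois_heckeAlg (N : ℕ) [NeZero N] :
    letI := heckeModuleBar N
    SMulCommClass (AlgebraicClosure ℚ ≃ₐ[ℚ] AlgebraicClosure ℚ) HeckeAlg (JZero N) := by
  letI := heckeModuleBar N
  refine ⟨fun σ t x => ?_⟩
  by_cases hc : HeckeOperatorsCommuteBar N
  · rw [heckeModuleBar_smul_def hc, heckeModuleBar_smul_def hc]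
    exact galois_smul_heckeEvalBar hc t σ x
  · rw [heckeModuleBar_smul_of_not hc, heckeModuleBar_smul_of_not hc]
    exact map_zsmul (DistribSMul.toAddMonoidHom (JZero N) σ) _ x

end Modular

end Fermat.Agent.S29.H60
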